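import Fermat.Agent.S26.Pic.Theory
import Fermat.Agent.S26.H164.LSDiv
import Fermat.Agent.S26.H566.Regular

/-!
# Row S26, block PIC, leaf P3 (helper582): the class map from Cartier divisors to the Čech
Picard group, `cdivDict : Nonempty (CDivDict cechPic)`.

A cocycle `c` on an integral scheme is *presented* by `γ : X → K(X)ˣ` if the transition unit
`c.g x y` is the rational function `γ x / γ y`.
-/

set_option autoImplicit false
set_option linter.style.haveILetI false
set_option linter.unusedVariables false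

open AlgebraicGeometry CategoryTheory TopologicalSpace Opposite

universe u

namespace Fermat.Agent.S26.Pic.H582

noncomputable section

variable {X Y : Scheme.{u}} [IsIntegral X] [IsIntegral Y]

/-! ## Sections as rational functions -/

theorem gen_mem {U : X.Opens} {x : X} (hx : x ∈ U) : genericPoint X ∈ U :=
  ((genericPoint_spec X).mem_open_set_iff U.isOpen).mpr ⟨x, Set.mem_univ x, hx⟩

theorem gen_mem_inf {U V : X.Opens} (hU : genericPoint X ∈ U) (hV : genericPoint X ∈ V) :
    genericPoint X ∈ U ⊓ V := ⟨hU, hV⟩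

/-- The germ at the generic point, as a ring homomorphism `Γ(X, U) → K(X)`. -/
def gff (U : X.Opens) (h : genericPoint X ∈ U) : Γ(X, U) →+* X.functionField :=
  (X.presheaf.germ U (genericPoint X) h).hom

theorem gff_apply (U : X.Opens) (h : genericPoint X ∈ U) (s : Γ(X, U)) :
    gff U h s = X.presheaf.germ U (genericPoint X) h s := rfl

theorem gff_injective (U : X.Opens) (h : genericPoint X ∈ U) : Function.Injective (gff U h) :=
  germ_injective_of_isIntegral X (genericPoint X) h

theorem gff_map {U V : X.Opens} (hVU : V ≤ U) (hV : genericPoint X ∈ V) (s : Γ(X, U)) :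
    gff V hV (X.presheaf.map (homOfLE hVU).op s) = gff U (hVU hV) s := by
  rw [gff_apply, gff_apply, TopCat.Presheaf.germ_res_apply]

/-- The image in `K(X)` of the germ at `x` of a section is its germ at the generic point. -/
theorem algebraMap_germ_eq_gff {U : X.Opens} (s : Γ(X, U)) (x : X) (hx : x ∈ U) :
    algebraMap (X.presheaf.stalk x) X.functionField (X.presheaf.germ U x hx s) =
      gff U (gen_mem hx) s :=
  H566.algebraMap_germ s x hx

/-- The germ at the generic point on units. -/
def gffU (U : X.Opens) (h : genericPoint X ∈ U) : Γ(X, U)ˣ →* (X.functionField)ˣ :=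
  Units.map (gff U h : Γ(X, U) →* X.functionField)

theorem coe_gffU (U : X.Opens) (h : genericPoint X ∈ U) (a : Γ(X, U)ˣ) :
    ((gffU U h a : (X.functionField)ˣ) : X.functionField) = gff U h (a : Γ(X, U)) := rfl

theorem gffU_injective (U : X.Opens) (h : genericPoint X ∈ U) :
    Function.Injective (gffU U h) :=
  Units.map_injective (gff_injective U h)

theorem gffU_res {U V : X.Opens} (hVU : V ≤ U) (hV : genericPoint X ∈ V) (a : Γ(X, U)ˣ) :
    gffU V hV (res hVU a) = gffU U (hVU hV) a := by
  ext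
  rw [coe_gffU, coe_gffU]
  exact gff_map hVU hV _

/-! ## Units of the local rings inside `K(X)ˣ` -/

/-- The rational function `f` is a unit of the local ring at `x`. -/
def IsUnitAt (x : X) (f : (X.functionField)ˣ) : Prop :=
  ∃ u : (X.presheaf.stalk x)ˣ,
    algebraMap (X.presheaf.stalk x) X.functionField (u : X.presheaf.stalk x) = f

theorem isUnitAt_one (x : X) : IsUnitAt x (1 : (X.functionField)ˣ) :=
  ⟨1, by simp⟩

theorem IsUnitAt.inv {x : X} {f : (X.functionField)ˣ} (h : IsUnitAt x f) : IsUnitAt x f⁻¹ := by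
  obtain ⟨u, hu⟩ := h
  refine ⟨u⁻¹, ?_⟩
  have h1 : algebraMap (X.presheaf.stalk x) X.functionField ((u⁻¹ : (X.presheaf.stalk x)ˣ) :
      X.presheaf.stalk x) * (f : X.functionField) = 1 := by
    rw [← hu, ← map_mul, Units.inv_mul, map_one]
  rw [Units.val_inv_eq_inv_val]
  exact eq_inv_of_mul_eq_one_left h1

theorem IsUnitAt.mul {x : X} {f g : (X.functionField)ˣ} (hf : IsUnitAt x f) (hg : IsUnitAt x g) :
    IsUnitAt x (f * g) := by
  obtain ⟨u, hu⟩ := hf
  obtain ⟨v, hv⟩ := hg
  exact ⟨u * v, by rw [Units.val_mul, map_mul, hu, hv, Units.val_mul]⟩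

theorem IsUnitAt.regularAt {x : X} {f : (X.functionField)ˣ} (h : IsUnitAt x f) :
    H566.RegularAt (f : X.functionField) x := by
  obtain ⟨u, hu⟩ := h
  exact ⟨u, hu⟩

/-- The germ of a unit section is a unit of the local ring. -/
theorem isUnitAt_gffU {U : X.Opens} (a : Γ(X, U)ˣ) (x : X) (hx : x ∈ U) :
    IsUnitAt x (gffU U (gen_mem hx) a) := by
  refine ⟨Units.map (X.presheaf.germ U x hx).hom a, ?_⟩
  rw [coe_gffU]
  exact algebraMap_germ_eq_gff (a : Γ(X, U)) x hx

/-- Equality of principal fractional ideals at `x` in terms of units. -/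
theorem span1_eq_iff {x : X} (f g : (X.functionField)ˣ) :
    LS.span1 (f : X.functionField) x = LS.span1 (g : X.functionField) x ↔
      IsUnitAt x (f / g) := by
  constructor
  · intro h
    obtain ⟨⟨a, ha⟩, ⟨b, hb⟩⟩ := H164.exists_smul_of_span_singleton_eq h
    have hab : a * b = 1 := by
      apply H164.algebraMap_stalk_injective x
      rw [map_mul, map_one]
      have h1 : (f : X.functionField) = (algebraMap _ X.functionField a *
          algebraMap _ X.functionField b) * f := by
        conv_lhs => rw [ha, hb]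
        rw [Algebra.smul_def, Algebra.smul_def, mul_assoc]
      have hf : (f : X.functionField) ≠ 0 := f.ne_zero
      exact (mul_right_cancel₀ hf (by rw [one_mul]; exact h1)).symm
    refine ⟨⟨a, b, hab, by rw [mul_comm]; exact hab⟩, ?_⟩
    rw [Units.val_div_eq_div_val, eq_div_iff g.ne_zero]
    show algebraMap _ X.functionField a * (g : X.functionField) = f
    rw [ha, Algebra.smul_def]
  · rintro ⟨u, hu⟩
    rw [Units.val_div_eq_div_val, eq_div_iff g.ne_zero] at hu
    refine H164.span_singleton_eq_of_smul (u : X.presheaf.stalk x)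
      ((u⁻¹ : (X.presheaf.stalk x)ˣ) : X.presheaf.stalk x) ?_ ?_
    · rw [Algebra.smul_def, hu]
    · rw [← hu, Algebra.smul_def, ← mul_assoc, ← map_mul, Units.inv_mul, map_one, one_mul]

/-- A unit of the local ring at `x` spreads out to a unit section near `x`. -/
theorem exists_unit_near {x : X} {f : (X.functionField)ˣ} (h : IsUnitAt x f) :
    ∃ (V : X.Opens) (hx : x ∈ V) (a : Γ(X, V)ˣ), gffU V (gen_mem hx) a = f := by
  obtain ⟨u, hu⟩ := h
  obtain ⟨V₁, hx₁, s₁, hs₁⟩ := X.presheaf.exists_germ_eq (u : X.presheaf.stalk x)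
  obtain ⟨V₂, hx₂, s₂, hs₂⟩ :=
    X.presheaf.exists_germ_eq ((u⁻¹ : (X.presheaf.stalk x)ˣ) : X.presheaf.stalk x)
  have hx : x ∈ V₁ ⊓ V₂ := ⟨hx₁, hx₂⟩
  set t₁ : Γ(X, V₁ ⊓ V₂) := X.presheaf.map (homOfLE (inf_le_left : V₁ ⊓ V₂ ≤ V₁)).op s₁ with ht₁
  set t₂ : Γ(X, V₁ ⊓ V₂) := X.presheaf.map (homOfLE (inf_le_right : V₁ ⊓ V₂ ≤ V₂)).op s₂ with ht₂
  have hg₁ : X.presheaf.germ (V₁ ⊓ V₂) x hx t₁ = u := by
    rw [ht₁, TopCat.Presheaf.germ_res_apply, hs₁]
  have hg₂ : X.presheaf.germ (V₁ ⊓ V₂) x hx t₂ = ((u⁻¹ : (X.presheaf.stalk x)ˣ) :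
      X.presheaf.stalk x) := by
    rw [ht₂, TopCat.Presheaf.germ_res_apply, hs₂]
  have h12 : t₁ * t₂ = 1 := by
    apply germ_injective_of_isIntegral X x hx
    rw [map_mul, map_one, hg₁, hg₂, Units.mul_inv]
  refine ⟨V₁ ⊓ V₂, hx, ⟨t₁, t₂, h12, by rw [mul_comm]; exact h12⟩, ?_⟩
  ext
  rw [coe_gffU, ← algebraMap_germ_eq_gff _ x hx]
  show algebraMap _ X.functionField (X.presheaf.germ (V₁ ⊓ V₂) x hx t₁) = f
  rw [hg₁, hu]

/-- A rational function which is a unit at every point of `W` is a unit section over `W`. -/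
theorem exists_unit_section (W : X.Opens) (hW : genericPoint X ∈ W) (f : (X.functionField)ˣ)
    (hf : ∀ z ∈ W, IsUnitAt z f) : ∃ a : Γ(X, W)ˣ, gffU W hW a = f := by
  obtain ⟨s, hs⟩ := H566.exists_section_of_regularAt W (f : X.functionField)
    (fun z hz => (hf z hz).regularAt)
  obtain ⟨t, ht⟩ := H566.exists_section_of_regularAt W ((f⁻¹ : (X.functionField)ˣ) :
    X.functionField) (fun z hz => (hf z hz).inv.regularAt)
  have hs' : gff W hW s = f := by
    rw [← algebraMap_germ_eq_gff s (genericPoint X) hW]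
    exact hs _ hW
  have ht' : gff W hW t = ((f⁻¹ : (X.functionField)ˣ) : X.functionField) := by
    rw [← algebraMap_germ_eq_gff t (genericPoint X) hW]
    exact ht _ hW
  have hst : s * t = 1 := by
    apply gff_injective W hW
    rw [map_mul, map_one, hs', ht', Units.mul_inv]
  refine ⟨⟨s, t, hst, by rw [mul_comm]; exact hst⟩, ?_⟩
  ext
  rw [coe_gffU]
  exact hs'

/-! ## Presented cocycles -/

theorem comm_group_aux {G : Type*} [CommGroup G] (gx gη Aη Ax g'x g'η : G)
    (h : gx / gη * Aη = Ax * (g'x / g'η)) : g'x / (Aη * g'η / gη * gx) = Ax⁻¹ := by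
  have hAx : Ax = (gx / gη * Aη) / (g'x / g'η) := eq_div_iff_mul_eq'.2 h.symm
  rw [hAx, inv_div, div_div]
  congr 1
  simp only [div_eq_mul_inv, mul_comm, mul_left_comm, mul_assoc]

theorem mem_inf_U (c : Cocycle X) (x y : X) : genericPoint X ∈ c.U x ⊓ c.U y :=
  gen_mem_inf (gen_mem (c.mem x)) (gen_mem (c.mem y))

/-- The cocycle `c` is presented by `γ`: its transition units are `γ x / γ y`. -/
def Presents (c : Cocycle X) (γ : X → (X.functionField)ˣ) : Prop :=
  ∀ x y, gffU (c.U x ⊓ c.U y) (mem_inf_U c x y) (c.g x y) = γ x / γ y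

theorem Presents.gffU_res {c : Cocycle X} {γ : X → (X.functionField)ˣ} (h : Presents c γ)
    {x y : X} {W : X.Opens} (hW : W ≤ c.U x ⊓ c.U y) (hη : genericPoint X ∈ W) :
    gffU W hη (res hW (c.g x y)) = γ x / γ y := by
  rw [H582.gffU_res, h x y]

/-- (a) A family of rational functions which locally differ by units presents a cocycle. -/
theorem exists_presents (γ : X → (X.functionField)ˣ)
    (hloc : ∀ x, ∃ U : X.Opens, x ∈ U ∧ ∀ y ∈ U, IsUnitAt y (γ y / γ x)) :
    ∃ c : Cocycle X, Presents c γ := by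
  choose U hxU hU using hloc
  have hη : ∀ x y, genericPoint X ∈ U x ⊓ U y := fun x y =>
    gen_mem_inf (gen_mem (hxU x)) (gen_mem (hxU y))
  have hunit : ∀ x y, ∀ z ∈ U x ⊓ U y, IsUnitAt z (γ x / γ y) := by
    intro x y z hz
    have h1 := hU x z hz.1
    have h2 := hU y z hz.2
    have e : γ x / γ y = (γ z / γ x)⁻¹ * (γ z / γ y) := by
      rw [inv_div, div_mul_div_cancel]
    rw [e]
    exact h1.inv.mul h2
  choose g hg using fun x y => exists_unit_section (U x ⊓ U y) (hη x y) (γ x / γ y) (hunit x y)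
  refine ⟨⟨U, hxU, g, ?_⟩, ?_⟩
  · intro x y z
    apply gffU_injective _ (gen_mem_inf (hη x y) (gen_mem (hxU z)))
    rw [map_mul, H582.gffU_res, H582.gffU_res, H582.gffU_res, hg, hg, hg, div_mul_div_cancel]
  · intro x y
    exact hg x y

/-- (b) Two presented cocycles whose presentations differ by a global rational function and
local units are cohomologous. -/
theorem rel_of_presents {c c' : Cocycle X} {γ γ' : X → (X.functionField)ˣ}
    (hc : Presents c γ) (hc' : Presents c' γ') (φ : (X.functionField)ˣ)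
    (h : ∀ x, IsUnitAt x (γ' x / (φ * γ x))) : Cocycle.Rel c c' := by
  have h' : ∀ x, ∃ (V : X.Opens) (hx : x ∈ V) (a : Γ(X, V)ˣ),
      gffU V (gen_mem hx) a = φ * γ x / γ' x := by
    intro x
    have h1 := (h x).inv
    rw [inv_div] at h1
    exact exists_unit_near h1
  choose V₀ hxV₀ a ha using h'
  refine ⟨fun x => V₀ x ⊓ (c.U x ⊓ c'.U x), fun x => ⟨hxV₀ x, c.mem x, c'.mem x⟩,
    fun x => inf_le_right.trans inf_le_left, fun x => inf_le_right.trans inf_le_right,
    fun x => res inf_le_left (a x), fun x y => ?_⟩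
  have hηx : ∀ x, genericPoint X ∈ V₀ x ⊓ (c.U x ⊓ c'.U x) := fun x =>
    gen_mem_inf (gen_mem (hxV₀ x)) (gen_mem_inf (gen_mem (c.mem x)) (gen_mem (c'.mem x)))
  beta_reduce
  apply gffU_injective _ (gen_mem_inf (hηx x) (hηx y))
  rw [map_mul, map_mul, hc.gffU_res, hc'.gffU_res, H582.gffU_res, H582.gffU_res,
    H582.gffU_res, H582.gffU_res, ha, ha]
  rw [div_mul_div_comm, div_mul_div_comm, div_eq_div_iff_mul_eq_mul]
  simp only [mul_comm, mul_left_comm]

/-- (c) Conversely, cohomologous presented cocycles have presentations which differ by a global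
rational function and local units. -/
theorem exists_of_rel {c c' : Cocycle X} {γ γ' : X → (X.functionField)ˣ}
    (hc : Presents c γ) (hc' : Presents c' γ') (h : Cocycle.Rel c c') :
    ∃ φ : (X.functionField)ˣ, ∀ x, IsUnitAt x (γ' x / (φ * γ x)) := by
  obtain ⟨V, hV, hcV, hc'V, a, H⟩ := h
  have key : ∀ x y, (γ x / γ y) * gffU (V y) (gen_mem (hV y)) (a y) =
      gffU (V x) (gen_mem (hV x)) (a x) * (γ' x / γ' y) := by
    intro x y
    have h1 := congrArg (gffU (V x ⊓ V y) (gen_mem_inf (gen_mem (hV x)) (gen_mem (hV y))))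
      (H x y)
    rw [map_mul, map_mul, hc.gffU_res, hc'.gffU_res, H582.gffU_res, H582.gffU_res] at h1
    exact h1
  refine ⟨gffU (V (genericPoint X)) (gen_mem (hV _)) (a (genericPoint X)) *
    γ' (genericPoint X) / γ (genericPoint X), fun x => ?_⟩
  rw [comm_group_aux _ _ _ _ _ _ (key x (genericPoint X))]
  exact (isUnitAt_gffU (a x) x (hV x)).inv

/-- (d) Products. -/
theorem Presents.mul {c c' : Cocycle X} {γ γ' : X → (X.functionField)ˣ}
    (hc : Presents c γ) (hc' : Presents c' γ') :
    Presents (c.mul c') (fun x => γ x * γ' x) := by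
  intro x y
  show gffU _ _ (res _ (c.g x y) * res _ (c'.g x y)) = _
  rw [map_mul, hc.gffU_res, hc'.gffU_res, div_mul_div_comm]

/-! ## Pull-backs -/

/-- Compatibility of `ffMap` with pull-back of sections. -/
theorem gff_appLE (f : X ⟶ Y) (h : f (genericPoint X) = genericPoint Y) {U : Y.Opens}
    {V : X.Opens} (e : V ≤ f ⁻¹ᵁ U) (hV : genericPoint X ∈ V) (hU : genericPoint Y ∈ U)
    (s : Γ(Y, U)) :
    gff V hV ((f.appLE U V e).hom s) = ffMap f h (gff U hU s) := by
  have hfU : f (genericPoint X) ∈ U := e hV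
  have h1 : gff U hU s = algebraMap (Y.presheaf.stalk (f (genericPoint X))) Y.functionField
      (Y.presheaf.germ U (f (genericPoint X)) hfU s) :=
    (algebraMap_germ_eq_gff s _ hfU).symm
  rw [h1, H164.ffMap_algebraMap, Scheme.Hom.germ_stalkMap_apply]
  exact (gff_map e hV _).trans
    (algebraMap_germ_eq_gff (f.app U s) (genericPoint X) (e hV)).symm

/-- `ffMap` on units. -/
def ffMapU (f : X ⟶ Y) (h : f (genericPoint X) = genericPoint Y) :
    (Y.functionField)ˣ →* (X.functionField)ˣ :=
  Units.map (ffMap f h : Y.functionField →* X.functionField)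

theorem coe_ffMapU (f : X ⟶ Y) (h : f (genericPoint X) = genericPoint Y)
    (a : (Y.functionField)ˣ) :
    ((ffMapU f h a : (X.functionField)ˣ) : X.functionField) = ffMap f h (a : Y.functionField) :=
  rfl

theorem gffU_pull (f : X ⟶ Y) (h : f (genericPoint X) = genericPoint Y) {U : Y.Opens}
    {V : X.Opens} (e : V ≤ f ⁻¹ᵁ U) (hV : genericPoint X ∈ V) (hU : genericPoint Y ∈ U)
    (a : Γ(Y, U)ˣ) :
    gffU V hV (pull f e a) = ffMapU f h (gffU U hU a) := by
  ext
  rw [coe_gffU, coe_ffMapU, coe_gffU]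
  exact gff_appLE f h e hV hU _

/-- (e) Pull-backs. -/
theorem Presents.pullback (f : X ⟶ Y) (h : f (genericPoint X) = genericPoint Y)
    {c : Cocycle Y} {γ : Y → (Y.functionField)ˣ} (hc : Presents c γ) :
    Presents (c.pullback f) (fun x => ffMapU f h (γ (f x))) := by
  intro x y
  show gffU _ _ (pull f _ (c.g (f x) (f y))) = _
  rw [gffU_pull f h _ _ (mem_inf_U c (f x) (f y)), hc (f x) (f y), map_div]

/-! ## The dictionary -/

/-- The local generators of a Cartier divisor, as units of the function field. -/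
def genU (D : CDiv X) (x : X) : (X.functionField)ˣ := Units.mk0 (D.gen x) (D.gen_ne x)

theorem coe_genU (D : CDiv X) (x : X) : ((genU D x : (X.functionField)ˣ) : X.functionField) =
    D.gen x := rfl

theorem exists_cocycle (D : CDiv X) : ∃ c : Cocycle X, Presents c (genU D) :=
  exists_presents _ fun x => by
    obtain ⟨U, hx, hU⟩ := D.loc x
    exact ⟨U, hx, fun y hy => (span1_eq_iff (genU D y) (genU D x)).1 (hU y hy)⟩

/-- A cocycle attached to a Cartier divisor. -/
def cocycleOf (D : CDiv X) : Cocycle X := (exists_cocycle D).choose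

theorem presents_cocycleOf (D : CDiv X) : Presents (cocycleOf D) (genU D) :=
  (exists_cocycle D).choose_spec

/-- The class of a Cartier divisor in the Čech Picard group. -/
def clDiv (D : CDiv X) : cechPic.{u}.Pic X := cl (cocycleOf D)

theorem clDiv_eq_iff (D D' : CDiv X) : clDiv D = clDiv D' ↔ CDiv.LinEquiv D D' := by
  rw [clDiv, clDiv, cl_eq_cl]
  constructor
  · intro hrel
    obtain ⟨φ, hφ⟩ := exists_of_rel (presents_cocycleOf D) (presents_cocycleOf D') hrel
    refine ⟨(φ : X.functionField), φ.ne_zero, fun x => ?_⟩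
    have := (span1_eq_iff (genU D' x) (φ * genU D x)).2 (hφ x)
    rwa [Units.val_mul, coe_genU, coe_genU] at this
  · rintro ⟨h, hne, hh⟩
    refine rel_of_presents (presents_cocycleOf D) (presents_cocycleOf D') (Units.mk0 h hne)
      fun x => ?_
    apply (span1_eq_iff (genU D' x) (Units.mk0 h hne * genU D x)).1
    rw [Units.val_mul, coe_genU, coe_genU, Units.val_mk0]
    exact hh x

theorem clDiv_mul (D D' D'' : CDiv X) (hmul : CDiv.IsMul D D' D'') :
    clDiv D'' = clDiv D + clDiv D' := by
  rw [clDiv, clDiv, clDiv, ← cl_mul, cl_eq_cl]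
  refine rel_of_presents (presents_cocycleOf D'')
    ((presents_cocycleOf D).mul (presents_cocycleOf D')) 1 fun x => ?_
  apply (span1_eq_iff (genU D x * genU D' x) (1 * genU D'' x)).1
  rw [one_mul, Units.val_mul, coe_genU, coe_genU, coe_genU]
  exact (hmul x).symm

theorem clDiv_pullback (φ : X ⟶ Y) (h : φ (genericPoint X) = genericPoint Y) (D : CDiv Y)
    (D' : CDiv X) (hpb : CDiv.IsPullback φ h D D') :
    clDiv D' = cechPic.{u}.map φ (clDiv D) := by
  rw [clDiv, clDiv, map_cl, cl_eq_cl]
  refine rel_of_presents (presents_cocycleOf D')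
    ((presents_cocycleOf D).pullback φ h) 1 fun x => ?_
  apply (span1_eq_iff (ffMapU φ h (genU D (φ x))) (1 * genU D' x)).1
  rw [one_mul, coe_ffMapU, coe_genU, coe_genU]
  exact (hpb x).symm

/-- **PIC:P3.** The Čech Picard functor receives the classes of Cartier divisors. -/
theorem cdivDict : Nonempty (CDivDict cechPic.{u}) :=
  ⟨{ cl := fun {X} _ D => clDiv D
     cl_eq_iff := fun {X} _ D D' => clDiv_eq_iff D D'
     cl_mul := fun {X} _ D D' D'' h => clDiv_mul D D' D'' h
     cl_pullback := fun {X Y} _ _ φ h D D' hpb => clDiv_pullback φ h D D' hpb }⟩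

end

end Fermat.Agent.S26.Pic.H582
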